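import Mathlib
import Fermat.Prelude.Def_FreyPackage_EigenformResidualAttachment
import Fermat.Prelude.Def_GaloisRep_Residual
import Fermat.Agent.S13.FreyOpen

/-!
# S42 from the statement of S29

`fromS29`: the (frozen) statement of S29 implies S42.  The field is `K = ℤ̄ / 𝔪`, the number field
is the normal closure of the compositum of a finite level of the residual representation and a
finite level of the `p`-torsion of the Frey curve (`Fermat.Agent.S13.frey_open`).
-/

set_option autoImplicit false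

open WeierstrassCurve WeierstrassCurve.Affine.Point Polynomial

namespace Fermat.Agent.S42

local notation "Qbar" => AlgebraicClosure ℚ
local notation "GQ" => (AlgebraicClosure ℚ ≃ₐ[ℚ] AlgebraicClosure ℚ)

/-- The statement of S29, as a proposition. -/
def S29Statement : Prop :=
  ∀ {N : ℕ} {g : CuspForm (CongruenceSubgroup.Gamma0 N) 2} (_ : g.IsNormalizedEigenform)
    {p : ℕ} (_ : p.Prime) {k : Type} [Field k] [CharP k p]
    (φ : integralClosure ℤ ℂ →+* k),
    ∃ ρ : ResidualGaloisRep k, ρ.IsAttachedTo g φ ∧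
      ∀ ℓ : ℕ, ℓ.Prime → ¬ ℓ ∣ N * p → ρ.IsUnramifiedAt ℓ

/-- trace and determinant of an endomorphism of a plane from its characteristic polynomial -/
theorem trace_det_of_charpoly {K V : Type} [Field K] [AddCommGroup V] [Module K V]
    [Module.Finite K V]
    (h2 : Module.finrank K V = 2) (f : Module.End K V) (t d : K)
    (hf : LinearMap.charpoly f = X ^ 2 - C t * X + C d) :
    LinearMap.trace K V f = t ∧ LinearMap.det f = d := by
  constructor
  · let b := Module.finBasis K V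
    have h1 : LinearMap.trace K V f = (LinearMap.toMatrix b b f).trace :=
      LinearMap.trace_eq_matrix_trace K b f
    have h3 : (LinearMap.toMatrix b b f).charpoly = f.charpoly := LinearMap.charpoly_toMatrix f b
    have hne : Nonempty (Fin (Module.finrank K V)) := by rw [h2]; exact ⟨0⟩
    rw [h1, Matrix.trace_eq_neg_charpoly_coeff, h3, hf, Fintype.card_fin, h2]
    simp [coeff_C]
  · have := LinearMap.det_eq_sign_charpoly_coeff f
    rw [this, h2, hf]
    simp

/-- An element of the kernel of the restriction to a normal intermediate extension fixes it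
pointwise (for arbitrary compatible algebra instances). -/
theorem fixes_of_mem_ker_restrictNormalHom (F : Type) [Field F] [Algebra ℚ F] [Algebra F Qbar]
    [IsScalarTower ℚ F Qbar] [Normal ℚ F] (σ : GQ)
    (hσ : σ ∈ (AlgEquiv.restrictNormalHom (F := ℚ) (K₁ := Qbar) F).ker) (x : F) :
    σ (algebraMap F Qbar x) = algebraMap F Qbar x := by
  have h1 : AlgEquiv.restrictNormalHom (F := ℚ) (K₁ := Qbar) F σ = 1 := hσ
  have h2 := AlgEquiv.restrictNormal_commutes σ F x
  have h3 : σ.restrictNormal F = 1 := h1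
  rw [h3] at h2
  exact h2.symm

/-- Two finite levels are contained in a common Galois number field. -/
theorem exists_galois_numberField (L₁ L₂ : IntermediateField ℚ Qbar)
    [FiniteDimensional ℚ L₁] [FiniteDimensional ℚ L₂] :
    ∃ (F : Type) (_ : Field F) (_ : NumberField F) (_ : IsGalois ℚ F)
      (_ : Algebra F Qbar) (_ : IsScalarTower ℚ F Qbar),
      ∀ σ ∈ (AlgEquiv.restrictNormalHom (F := ℚ) (K₁ := Qbar) F).ker,
        (∀ x ∈ L₁, σ x = x) ∧ (∀ x ∈ L₂, σ x = x) := by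
  let L : IntermediateField ℚ Qbar := IntermediateField.normalClosure ℚ ↥(L₁ ⊔ L₂) Qbar
  have hle : L₁ ⊔ L₂ ≤ L := IntermediateField.le_normalClosure _
  have hQ : Normal ℚ Qbar :=
    @IsAlgClosure.normal ℚ Qbar _ _ (AlgebraicClosure.instAlgebra ℚ) inferInstance
  have hfd : FiniteDimensional ℚ L := normalClosure.is_finiteDimensional ℚ ↥(L₁ ⊔ L₂) Qbar
  have hn : Normal ℚ L := normalClosure.normal ℚ ↥(L₁ ⊔ L₂) Qbar
  have hnf : NumberField L := { to_charZero := inferInstance, to_finiteDimensional := hfd }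
  have hgal : IsGalois ℚ L := { }
  refine ⟨L, inferInstance, hnf, ?_, inferInstance, ?_, ?_⟩
  · exact hgal
  · infer_instance
  · intro σ hσ
    have key := fixes_of_mem_ker_restrictNormalHom L σ hσ
    exact ⟨fun x hx => key ⟨x, hle (le_sup_left (a := L₁) hx)⟩,
      fun x hx => key ⟨x, hle (le_sup_right (b := L₂) hx)⟩⟩

/-- **S42 from S29.** -/
theorem fromS29 (h : S29Statement) (P : FreyPackage) :
    ∀ M : ℕ, 0 < M → P.EigenformResidualAttachmentAt M := by
  intro M _ g hg 𝔪 h𝔪 hp𝔪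
  let iK : Field (integralClosure ℤ ℂ ⧸ 𝔪) := Ideal.Quotient.field 𝔪
  have hpK : ((P.p : ℕ) : integralClosure ℤ ℂ ⧸ 𝔪) = 0 := by
    have := Ideal.Quotient.eq_zero_iff_mem.mpr hp𝔪
    simpa using this
  have iC : CharP (integralClosure ℤ ℂ ⧸ 𝔪) P.p := (CharP.charP_iff_prime_eq_zero P.pp).mpr hpK
  let iA : Algebra (ZMod P.p) (integralClosure ℤ ℂ ⧸ 𝔪) := ZMod.algebra _ _
  obtain ⟨ρ, hatt, -⟩ := h hg P.pp (Ideal.Quotient.mk 𝔪)
  obtain ⟨L₁, hL₁, hρ⟩ := ρ.factorsThroughFiniteLevel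
  obtain ⟨L₂, hL₂, hE⟩ := Fermat.Agent.S13.frey_open P
  obtain ⟨F, i1, i2, i3, i4, i5, hF⟩ := exists_galois_numberField L₁ L₂
  have hne : ∀ ℓ : ℕ, ℓ.Prime → ℓ ≠ P.p → ((ℓ : ℕ) : integralClosure ℤ ℂ ⧸ 𝔪) ≠ 0 := by
    intro ℓ hℓ hℓp h0
    have := (CharP.cast_eq_zero_iff (integralClosure ℤ ℂ ⧸ 𝔪) P.p ℓ).mp h0
    exact hℓp ((Nat.prime_dvd_prime_iff_eq P.pp hℓ).mp this).symm
  refine ⟨integralClosure ℤ ℂ ⧸ 𝔪, iK, iA, ρ.V, inferInstance, inferInstance, ρ.ρ,
    Ideal.Quotient.mk 𝔪, F, i1, i2, i3, i4, i5, ?_, ρ.finrank_eq, ?_, ?_, ?_⟩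
  · rw [Ideal.mk_ker]
  · intro σ hσ
    obtain ⟨h1, h2⟩ := hF σ hσ
    refine ⟨?_, hρ σ h1⟩
    have h3 : σ ∈ L₂.fixingSubgroup := by
      rw [IntermediateField.mem_fixingSubgroup_iff]
      exact h2
    change galoisRepModuleEnd ℚ P.freyCurve P.p σ = 1
    apply LinearMap.ext
    intro x
    exact hE σ h3 x
  · intro ℓ hℓ hℓM hℓp A hA τ hτ
    obtain ⟨a, ha, hc⟩ := hatt ℓ hℓ hℓM (hne ℓ hℓ hℓp) A hA τ hτ
    exact ⟨a, ha, (trace_det_of_charpoly ρ.finrank_eq _ _ _ hc).1⟩
  · intro ℓ hℓ hℓM hℓp A hA τ hτ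
    obtain ⟨a, ha, hc⟩ := hatt ℓ hℓ hℓM (hne ℓ hℓ hℓp) A hA τ hτ
    exact (trace_det_of_charpoly ρ.finrank_eq _ _ _ hc).2

end Fermat.Agent.S42
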